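import Fermat.Agent.H49.S58.Hasse3OrdAbs
import Fermat.Agent.H51.S58.HasseGeneric

/-!
# S58 glue, HASSE3 (helper49): the Hasse relation for the ordinary curve `y² = x³ + x² + 2`
over `𝔽₃`

* `hasseRelation_ord3_1_2 : HasseRelation ⟨0, 1, 0, 0, 2⟩`  (`y² = x³ + x² + 2`, trace `+1`).

The generic-point computation is `Fermat.Agent.H49.S58.h3o_rel`; the passage from generic points
to all points is helper51's `Fermat.Agent.H51.S58.hasseRelation_of_generic`.
-/

set_option maxSynthPendingDepth 3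
set_option autoImplicit false
set_option linter.unusedSectionVars false
set_option linter.unusedVariables false

namespace Fermat.Agent.H49.S58

open WeierstrassCurve WeierstrassCurve.Affine WeierstrassCurve.Affine.Point
open Fermat.Agent.H40

/-- `3 = 0` in an `𝔽₃`-algebra. -/
theorem h3o_three_eq_zero (K : Type*) [Field K] [Algebra (ZMod 3) K] : (3 : K) = 0 := by
  have h : (3 : K) = algebraMap (ZMod 3) K 3 := (map_ofNat _ 3).symm
  rw [h, show (3 : ZMod 3) = 0 from rfl, _root_.map_zero]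

/-- Frobenius on affine points over `𝔽₃`. -/
theorem h3o_frobPt_some (E : WeierstrassCurve (ZMod 3)) (K : Type*) [Field K] [DecidableEq K]
    [Algebra (ZMod 3) K] (a b : K) (hab : (E⁄K).toAffine.Nonsingular a b) :
    ∃ hab' : (E⁄K).toAffine.Nonsingular (a ^ 3) (b ^ 3),
      frobPt E K (Point.some a b hab) = Point.some (a ^ 3) (b ^ 3) hab' := by
  obtain ⟨h', e⟩ := frobPt_some E K hab
  have hc : Fintype.card (ZMod 3) = 3 := ZMod.card 3
  revert h' e
  rw [hc]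
  intro h' e
  exact ⟨h', e⟩

/-- The number of points of a Weierstrass curve over `𝔽₃` from the number of nonsingular
affine solutions. -/
theorem h3o_card (E : WeierstrassCurve (ZMod 3)) (n : ℕ)
    (hn : (Finset.univ.filter (fun xy : ZMod 3 × ZMod 3 =>
      (xy.2 ^ 2 + E.a₁ * xy.1 * xy.2 + E.a₃ * xy.2 =
        xy.1 ^ 3 + E.a₂ * xy.1 ^ 2 + E.a₄ * xy.1 + E.a₆) ∧
      (E.a₁ * xy.2 ≠ 3 * xy.1 ^ 2 + 2 * E.a₂ * xy.1 + E.a₄ ∨
        xy.2 ≠ -xy.2 - E.a₁ * xy.1 - E.a₃))).card = n) :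
    E.card = n + 1 := by
  classical
  unfold WeierstrassCurve.card
  rw [Nat.card_congr (nonsingularPointEquiv E.toAffine)]
  have e : {xy : ZMod 3 × ZMod 3 // E.toAffine.Nonsingular xy.1 xy.2} ≃
      {xy : ZMod 3 × ZMod 3 // (xy.2 ^ 2 + E.a₁ * xy.1 * xy.2 + E.a₃ * xy.2 =
        xy.1 ^ 3 + E.a₂ * xy.1 ^ 2 + E.a₄ * xy.1 + E.a₆) ∧
      (E.a₁ * xy.2 ≠ 3 * xy.1 ^ 2 + 2 * E.a₂ * xy.1 + E.a₄ ∨
        xy.2 ≠ -xy.2 - E.a₁ * xy.1 - E.a₃)} :=
    Equiv.subtypeEquivRight fun xy => by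
      rw [nonsingular_iff, equation_iff]
  have h1 : Nat.card (WithZero {xy : ZMod 3 × ZMod 3 // E.toAffine.Nonsingular xy.1 xy.2}) =
      Nat.card {xy : ZMod 3 × ZMod 3 // E.toAffine.Nonsingular xy.1 xy.2} + 1 := by
    show Nat.card (Option _) = _
    rw [Nat.card_eq_fintype_card, Fintype.card_option, Nat.card_eq_fintype_card]
  rw [h1, Nat.card_congr e, Nat.card_eq_fintype_card, Fintype.card_subtype, ← hn]

theorem h3o_trace_1_2 : (⟨0, 1, 0, 0, 2⟩ : WeierstrassCurve (ZMod 3)).traceOfFrobenius = 1 := by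
  unfold WeierstrassCurve.traceOfFrobenius
  rw [h3o_card _ 2 (by decide), Nat.card_eq_fintype_card, ZMod.card]
  norm_num

/-- Generic points of `y² = x³ + x² + 2`. -/
theorem h3o_generic_1_2 (K : Type) [Field K] [DecidableEq K] [Algebra (ZMod 3) K] (x y : K)
    (hxy : ((⟨0, 1, 0, 0, 2⟩ : WeierstrassCurve (ZMod 3))⁄K).toAffine.Nonsingular x y)
    (hx0 : x ≠ 0) (hx1 : x ≠ 1) (hxm : x ≠ -1) (hf : x ^ 3 + x ^ 2 + 2 ≠ 0) :
    hasseOp (⟨0, 1, 0, 0, 2⟩ : WeierstrassCurve (ZMod 3)) K (Point.some x y hxy) = 0 := by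
  have key := h3o_rel (((⟨0, 1, 0, 0, 2⟩ : WeierstrassCurve (ZMod 3))⁄K).toAffine)
    (h3o_three_eq_zero K) (_root_.map_zero _) (_root_.map_one _) (_root_.map_zero _)
    (_root_.map_zero _) (map_ofNat _ 2)
    (frobPt (⟨0, 1, 0, 0, 2⟩ : WeierstrassCurve (ZMod 3)) K)
    (h3o_frobPt_some _ K) hxy hx0 hx1 hxm hf
  rw [_root_.map_add, _root_.map_neg] at key
  rw [hasseOp_apply, h3o_trace_1_2, ZMod.card]
  have e3 : ((3 : ℕ) : ℤ) • (Point.some x y hxy :
      ((⟨0, 1, 0, 0, 2⟩ : WeierstrassCurve (ZMod 3))⁄K).toAffine.Point) =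
      Point.some x y hxy + Point.some x y hxy + Point.some x y hxy := by
    rw [show ((3 : ℕ) : ℤ) = 1 + 1 + 1 from rfl, add_zsmul, add_zsmul, one_zsmul]
  rw [e3, one_zsmul, sub_eq_add_neg]
  exact key

/-- **HASSE3, ordinary curve `y² = x³ + x² + 2` over `𝔽₃`.** -/
theorem hasseRelation_ord3_1_2 :
    HasseRelation (⟨0, 1, 0, 0, 2⟩ : WeierstrassCurve (ZMod 3)) := by
  classical
  refine Fermat.Agent.H51.S58.hasseRelation_of_generic _ (by decide) ?_
  intro K _ _ _ _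
  have hp : (Polynomial.X ^ 3 + Polynomial.X ^ 2 + Polynomial.C 2 : Polynomial K) ≠ 0 := by
    intro h0
    have h1 := congrArg (fun q : Polynomial K => q.coeff 3) h0
    simp [Polynomial.coeff_X_pow] at h1
  refine ⟨{0, 1, -1} ∪
    (Polynomial.X ^ 3 + Polynomial.X ^ 2 + Polynomial.C 2 : Polynomial K).roots.toFinset,
    fun x y hxy hx => ?_⟩
  have hx0 : x ≠ 0 := fun h => hx (by rw [h]; simp)
  have hx1 : x ≠ 1 := fun h => hx (by rw [h]; simp)
  have hxm : x ≠ -1 := fun h => hx (by rw [h]; simp)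
  have hf : x ^ 3 + x ^ 2 + 2 ≠ 0 := by
    intro h0
    apply hx
    rw [Finset.mem_union]
    right
    rw [Multiset.mem_toFinset, Polynomial.mem_roots hp]
    simpa [Polynomial.IsRoot] using h0
  rw [h3o_generic_1_2 K x y hxy hx0 hx1 hxm hf, smul_zero]

end Fermat.Agent.H49.S58
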