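import Mathlib

/-!
# S58 glue, HASSE3 (helper49): the ordinary curve `y² = x³ + x² + 2` in characteristic 3,
abstract computation

For a Weierstrass curve `W : y² = x³ + x² + 2` over a field `k` with `3 = 0`, a point
`P = (x, y)` with `x ∉ {0, 1, -1}` and `x³ + x² + 2 ≠ 0`, and a map `F` acting on affine points
by `(a, b) ↦ (a³, b³)`:

  `F (F P - P) + 3 P = 0`     (`φ² - φ + 3 = 0`, trace `+1`).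

All identities are checked by `linear_combination` with explicit certificates (computed
offline).  Mathlib only.
-/

set_option autoImplicit false
set_option linter.unusedSectionVars false
set_option linter.unusedVariables false
set_option linter.style.longLine false
set_option maxHeartbeats 4000000

namespace Fermat.Agent.H49.S58

open WeierstrassCurve WeierstrassCurve.Affine WeierstrassCurve.Affine.Point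

variable {k : Type*} [Field k] [DecidableEq k]

/-! ### General formulas for `a₁ = a₃ = 0`, `a₂ = 1` -/

section general

variable (W : WeierstrassCurve.Affine k) (ha₁ : W.a₁ = 0) (ha₂ : W.a₂ = 1) (ha₃ : W.a₃ = 0)

include ha₁ ha₂ ha₃

theorem h3o_g_negY (x y : k) : W.negY x y = -y := by
  simp only [negY, ha₁, ha₃]
  ring

theorem h3o_g_addX (x₁ x₂ ℓ : k) : W.addX x₁ x₂ ℓ = ℓ ^ 2 - 1 - x₁ - x₂ := by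
  simp only [addX, ha₁, ha₂]
  ring

theorem h3o_g_addY (x₁ x₂ y₁ ℓ : k) :
    W.addY x₁ x₂ y₁ ℓ = -(ℓ * (W.addX x₁ x₂ ℓ - x₁) + y₁) := by
  simp only [addY, negAddY, negY, ha₁, ha₃]
  ring

end general

/-! ### Prescribed coordinates -/

theorem h3o_add_self_eq {W : Affine k} {x y X Y : k} (h : W.Nonsingular x y)
    (hy : y ≠ W.negY x y) (hX : W.addX x x (W.slope x x y y) = X)
    (hY : W.addY x x y (W.slope x x y y) = Y) :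
    ∃ h' : W.Nonsingular X Y, some x y h + some x y h = some X Y h' := by
  subst hX hY
  exact ⟨_, add_self_of_Y_ne hy⟩

theorem h3o_add_eq_of_X_ne {W : Affine k} {x₁ x₂ y₁ y₂ X Y : k} (h₁ : W.Nonsingular x₁ y₁)
    (h₂ : W.Nonsingular x₂ y₂) (hx : x₁ ≠ x₂)
    (hX : W.addX x₁ x₂ (W.slope x₁ x₂ y₁ y₂) = X)
    (hY : W.addY x₁ x₂ y₁ (W.slope x₁ x₂ y₁ y₂) = Y) :
    ∃ h' : W.Nonsingular X Y, some x₁ y₁ h₁ + some x₂ y₂ h₂ = some X Y h' := by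
  subst hX hY
  exact ⟨_, add_of_X_ne hx⟩

theorem h3o_neg_eq_some {W : Affine k} {x y Y : k} (h : W.Nonsingular x y)
    (hY : W.negY x y = Y) :
    ∃ h' : W.Nonsingular x Y, -some x y h = some x Y h' := by
  subst hY
  exact ⟨_, neg_some h⟩

/-! ### The computation -/

section ord

variable (W : WeierstrassCurve.Affine k)
    (h3 : (3 : k) = 0) (ha₁ : W.a₁ = 0) (ha₂ : W.a₂ = 1) (ha₃ : W.a₃ = 0) (ha₄ : W.a₄ = 0)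
    (ha₆ : W.a₆ = 2) {x y : k} (h : W.Equation x y) (hx0 : x ≠ 0) (hx1 : x ≠ 1)
    (hxm : x ≠ -1) (hf : x ^ 3 + x ^ 2 + 2 ≠ 0)

include h3 ha₁ ha₂ ha₃ ha₄ ha₆ h hx0 hx1 hxm hf

theorem h3o_eqn : y ^ 2 = x ^ 3 + x ^ 2 + 2 := by
  have hC := (equation_iff x y).mp h
  rw [ha₁, ha₂, ha₃, ha₄, ha₆] at hC
  linear_combination hC

theorem h3o_y_ne : y ≠ 0 := by
  have hC := h3o_eqn W h3 ha₁ ha₂ ha₃ ha₄ ha₆ h hx0 hx1 hxm hf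
  intro h0
  apply hf
  linear_combination (-1) * hC + y * h0

theorem h3o_Y_ne : y ≠ W.negY x y := by
  rw [h3o_g_negY W ha₁ ha₂ ha₃]
  intro h0
  apply h3o_y_ne W h3 ha₁ ha₂ ha₃ ha₄ ha₆ h hx0 hx1 hxm hf
  linear_combination (-1) * h0 + y * h3

theorem h3o_X_ne : x ^ 3 ≠ x := by
  intro h0
  have h1 : x * ((x - 1) * (x + 1)) = 0 := by linear_combination h0
  rcases mul_eq_zero.mp h1 with h2 | h2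
  · exact hx0 h2
  · rcases mul_eq_zero.mp h2 with h4 | h4
    · exact hx1 (sub_eq_zero.mp h4)
    · exact hxm (eq_neg_of_add_eq_zero_left h4)

theorem h3o_slope_dup :
    W.slope x x y y = (y * x) / (x ^ 3 + x ^ 2 + 2) := by
  have hC := h3o_eqn W h3 ha₁ ha₂ ha₃ ha₄ ha₆ h hx0 hx1 hxm hf
  have hx1' : x - 1 ≠ 0 := sub_ne_zero.mpr hx1
  have hy := h3o_Y_ne W h3 ha₁ ha₂ ha₃ ha₄ ha₆ h hx0 hx1 hxm hf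
  rw [slope_of_Y_ne rfl hy, div_eq_div_iff (sub_ne_zero.mpr hy) hf]
  simp only [negY, ha₁, ha₂, ha₃, ha₄]
  linear_combination (-2 * x) * hC + (x ^ 5 + x ^ 4 + 2 * x ^ 2) * h3

theorem h3o_addX_dup :
    W.addX x x ((y * x) / (x ^ 3 + x ^ 2 + 2)) = (x ^ 4 - x + 1) / (x ^ 3 + x ^ 2 + 2) := by
  have hC := h3o_eqn W h3 ha₁ ha₂ ha₃ ha₄ ha₆ h hx0 hx1 hxm hf
  have hx1' : x - 1 ≠ 0 := sub_ne_zero.mpr hx1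
  rw [h3o_g_addX W ha₁ ha₂ ha₃]
  have eL : ∀ d m : k, d ≠ 0 → m ≠ 0 →
      (((((y * x) / d) ^ 2) - 1) - x) - x =
        (x ^ 2 * y ^ 2 - 2 * x * d ^ 2 - d ^ 2) / (d ^ 2) := by
    intro d m hd hm
    field_simp
    ring
  rw [eL (x ^ 3 + x ^ 2 + 2) (x - 1) hf hx1']
  rw [div_eq_div_iff (pow_ne_zero 2 hf) hf]
  linear_combination (x ^ 5 + x ^ 4 + 2 * x ^ 2) * hC + (-x ^ 10 - 3 * x ^ 9 - 3 * x ^ 8 - 6 * x ^ 7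
      - 11 * x ^ 6 - 7 * x ^ 5 - 9 * x ^ 4 - 12 * x ^ 3 - 4 * x ^ 2 - 4 * x - 4) * h3

theorem h3o_addY_dup :
    W.addY x x y ((y * x) / (x ^ 3 + x ^ 2 + 2)) = (y * (-x ^ 6 + x ^ 5 - x ^ 3 - x ^ 2 - x - 1)) / ((x ^ 3 + x ^ 2 + 2) ^ 2) := by
  have hC := h3o_eqn W h3 ha₁ ha₂ ha₃ ha₄ ha₆ h hx0 hx1 hxm hf
  have hx1' : x - 1 ≠ 0 := sub_ne_zero.mpr hx1
  rw [h3o_g_addY W ha₁ ha₂ ha₃, h3o_addX_dup W h3 ha₁ ha₂ ha₃ ha₄ ha₆ h hx0 hx1 hxm hf]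
  have eL : ∀ d m : k, d ≠ 0 → m ≠ 0 →
      -((((y * x) / d) * (((x ^ 4 - x + 1) / d) - x)) + y) =
        (-x ^ 5 * y + x ^ 2 * y * d + x ^ 2 * y - x * y - y * d ^ 2) / (d ^ 2) := by
    intro d m hd hm
    field_simp
    ring
  rw [eL (x ^ 3 + x ^ 2 + 2) (x - 1) hf hx1']
  rw [div_eq_div_iff (pow_ne_zero 2 hf) (pow_ne_zero 2 hf)]
  linear_combination (0) * hC + (-x ^ 11 * y - 2 * x ^ 10 * y - 2 * x ^ 9 * y - 6 * x ^ 8 * y - 5 * x ^ 7 * y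
      - 5 * x ^ 6 * y - 10 * x ^ 5 * y - x ^ 4 * y - 8 * x ^ 3 * y - 4 * x ^ 2 * y - 4 * y) * h3

theorem h3o_X2_ne :
    (x ^ 4 - x + 1) / (x ^ 3 + x ^ 2 + 2) ≠ x := by
  have hC := h3o_eqn W h3 ha₁ ha₂ ha₃ ha₄ ha₆ h hx0 hx1 hxm hf
  have hx1' : x - 1 ≠ 0 := sub_ne_zero.mpr hx1
  intro h0
  rw [div_eq_iff hf] at h0
  have h1 : (x - 1) ^ 3 = 0 := by
    linear_combination (-1) * h0 + (-x ^ 2) * h3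
  exact hx1' (pow_eq_zero_iff (by norm_num) |>.mp h1)

theorem h3o_slope_trip :
    W.slope ((x ^ 4 - x + 1) / (x ^ 3 + x ^ 2 + 2)) x ((y * (-x ^ 6 + x ^ 5 - x ^ 3 - x ^ 2 - x - 1)) / ((x ^ 3 + x ^ 2 + 2) ^ 2)) y = (y * (-x ^ 6 + x ^ 5 + x ^ 4 - x ^ 3 - x ^ 2 + x - 1)) / ((x ^ 3 + x ^ 2 + 2) * (x - 1) ^ 3) := by
  have hC := h3o_eqn W h3 ha₁ ha₂ ha₃ ha₄ ha₆ h hx0 hx1 hxm hf
  have hx1' : x - 1 ≠ 0 := sub_ne_zero.mpr hx1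
  have hne := h3o_X2_ne W h3 ha₁ ha₂ ha₃ ha₄ ha₆ h hx0 hx1 hxm hf
  rw [slope_of_X_ne hne, div_eq_iff (sub_ne_zero.mpr hne)]
  have eL : ∀ d m : k, d ≠ 0 → m ≠ 0 →
      ((y * (-x ^ 6 + x ^ 5 - x ^ 3 - x ^ 2 - x - 1)) / (d ^ 2)) - y =
        (-x ^ 6 * y + x ^ 5 * y - x ^ 3 * y - x ^ 2 * y - x * y - y * d ^ 2 - y) / (d ^ 2) := by
    intro d m hd hm
    field_simp
    ring
  rw [eL (x ^ 3 + x ^ 2 + 2) (x - 1) hf hx1']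
  have eR : ∀ d m : k, d ≠ 0 → m ≠ 0 →
      ((y * (-x ^ 6 + x ^ 5 + x ^ 4 - x ^ 3 - x ^ 2 + x - 1)) / (d * m ^ 3)) * (((x ^ 4 - x + 1) / d)
        - x) =
        (-x ^ 10 * y + x ^ 9 * y + x ^ 8 * y + x ^ 7 * y * d - x ^ 6 * y * d - 3 * x ^ 6 * y - x ^ 5 * y * d
          + x ^ 5 * y + x ^ 4 * y * d + x ^ 4 * y + x ^ 3 * y * d - x ^ 2 * y * d - 2 * x ^ 2 * y
          + x * y * d + 2 * x * y - y) / (d ^ 2 * m ^ 3) := by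
    intro d m hd hm
    field_simp
    ring
  rw [eR (x ^ 3 + x ^ 2 + 2) (x - 1) hf hx1']
  rw [div_eq_div_iff (pow_ne_zero 2 hf) (mul_ne_zero (pow_ne_zero 2 hf) (pow_ne_zero 3 hx1'))]
  linear_combination (0) * hC + (-x ^ 15 * y + x ^ 13 * y - 6 * x ^ 12 * y + 5 * x ^ 11 * y + 5 * x ^ 10 * y
      - 16 * x ^ 9 * y + 16 * x ^ 8 * y + 3 * x ^ 7 * y - 27 * x ^ 6 * y + 18 * x ^ 5 * y + 2 * x ^ 4 * y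
      - 36 * x ^ 3 * y + 36 * x ^ 2 * y - 24 * x * y + 8 * y) * h3

theorem h3o_addX_trip :
    W.addX ((x ^ 4 - x + 1) / (x ^ 3 + x ^ 2 + 2)) x ((y * (-x ^ 6 + x ^ 5 + x ^ 4 - x ^ 3 - x ^ 2 + x - 1)) / ((x ^ 3 + x ^ 2 + 2) * (x - 1) ^ 3)) = (x ^ 9 + x ^ 3 - 1) / ((x - 1) ^ 6) := by
  have hC := h3o_eqn W h3 ha₁ ha₂ ha₃ ha₄ ha₆ h hx0 hx1 hxm hf
  have hx1' : x - 1 ≠ 0 := sub_ne_zero.mpr hx1
  rw [h3o_g_addX W ha₁ ha₂ ha₃]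
  have eL : ∀ d m : k, d ≠ 0 → m ≠ 0 →
      (((((y * (-x ^ 6 + x ^ 5 + x ^ 4 - x ^ 3 - x ^ 2 + x - 1)) / (d * m ^ 3)) ^ 2) - 1) - ((x ^ 4 - x
        + 1) / d)) - x =
        (x ^ 12 * y ^ 2 - 2 * x ^ 11 * y ^ 2 - x ^ 10 * y ^ 2 + 4 * x ^ 9 * y ^ 2 + x ^ 8 * y ^ 2 - 6 * x ^ 7 * y ^ 2
          + 3 * x ^ 6 * y ^ 2 + 2 * x ^ 5 * y ^ 2 - 3 * x ^ 4 * y ^ 2 - x ^ 4 * d * m ^ 6 + 3 * x ^ 2 * y ^ 2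
          - 2 * x * y ^ 2 - x * d ^ 2 * m ^ 6 + x * d * m ^ 6 + y ^ 2 - d ^ 2 * m ^ 6 - d * m ^ 6) / (d ^ 2 * m ^ 6) := by
    intro d m hd hm
    field_simp
    ring
  rw [eL (x ^ 3 + x ^ 2 + 2) (x - 1) hf hx1']
  rw [div_eq_div_iff (mul_ne_zero (pow_ne_zero 2 hf) (pow_ne_zero 6 hx1')) (pow_ne_zero 6 hx1')]
  linear_combination (x ^ 18 - 8 * x ^ 17 + 26 * x ^ 16 - 40 * x ^ 15 + 17 * x ^ 14 + 32 * x ^ 13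
      - 28 * x ^ 12 - 62 * x ^ 11 + 140 * x ^ 10 - 104 * x ^ 9 + 46 * x ^ 7 + 4 * x ^ 6 - 76 * x ^ 5
      + 97 * x ^ 4 - 68 * x ^ 3 + 30 * x ^ 2 - 8 * x + 1) * hC + (-x ^ 20 + 4 * x ^ 19 - 32 * x ^ 17
      + 89 * x ^ 16 - 103 * x ^ 15 - 15 * x ^ 14 + 242 * x ^ 13 - 395 * x ^ 12 + 324 * x ^ 11 - 163 * x ^ 10
      + 257 * x ^ 9 - 758 * x ^ 8 + 1376 * x ^ 7 - 1638 * x ^ 6 + 1367 * x ^ 5 - 811 * x ^ 4 + 331 * x ^ 3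
      - 84 * x ^ 2 + 10 * x) * h3

theorem h3o_addY_trip :
    W.addY ((x ^ 4 - x + 1) / (x ^ 3 + x ^ 2 + 2)) x ((y * (-x ^ 6 + x ^ 5 - x ^ 3 - x ^ 2 - x - 1)) / ((x ^ 3 + x ^ 2 + 2) ^ 2)) ((y * (-x ^ 6 + x ^ 5 + x ^ 4 - x ^ 3 - x ^ 2 + x - 1)) / ((x ^ 3 + x ^ 2 + 2) * (x - 1) ^ 3)) = (y * (x ^ 12 + x ^ 11 - x ^ 9 - x ^ 6 - x ^ 5 - x ^ 3 + x ^ 2 - 1)) / ((x - 1) ^ 9) := by
  have hC := h3o_eqn W h3 ha₁ ha₂ ha₃ ha₄ ha₆ h hx0 hx1 hxm hf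
  have hx1' : x - 1 ≠ 0 := sub_ne_zero.mpr hx1
  rw [h3o_g_addY W ha₁ ha₂ ha₃, h3o_addX_trip W h3 ha₁ ha₂ ha₃ ha₄ ha₆ h hx0 hx1 hxm hf]
  have eL : ∀ d m : k, d ≠ 0 → m ≠ 0 →
      -((((y * (-x ^ 6 + x ^ 5 + x ^ 4 - x ^ 3 - x ^ 2 + x - 1)) / (d * m ^ 3)) * (((x ^ 9 + x ^ 3 - 1) / (m ^ 6))
        - ((x ^ 4 - x + 1) / d))) + ((y * (-x ^ 6 + x ^ 5 - x ^ 3 - x ^ 2 - x - 1)) / (d ^ 2))) =
        (x ^ 15 * y * d - x ^ 14 * y * d - x ^ 13 * y * d + x ^ 12 * y * d + x ^ 11 * y * d - x ^ 10 * y * d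
          - x ^ 10 * y * m ^ 6 + 2 * x ^ 9 * y * d + x ^ 9 * y * m ^ 6 - x ^ 8 * y * d + x ^ 8 * y * m ^ 6
          - x ^ 7 * y * d + x ^ 6 * y * m ^ 9 - 3 * x ^ 6 * y * m ^ 6 + 2 * x ^ 5 * y * d - x ^ 5 * y * m ^ 9
          + x ^ 5 * y * m ^ 6 + x ^ 4 * y * m ^ 6 + x ^ 3 * y * m ^ 9 - x ^ 2 * y * d + x ^ 2 * y * m ^ 9
          - 2 * x ^ 2 * y * m ^ 6 + x * y * d + x * y * m ^ 9 + 2 * x * y * m ^ 6 - y * d + y * m ^ 9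
          - y * m ^ 6) / (d ^ 2 * m ^ 9) := by
    intro d m hd hm
    field_simp
    ring
  rw [eL (x ^ 3 + x ^ 2 + 2) (x - 1) hf hx1']
  rw [div_eq_div_iff (mul_ne_zero (pow_ne_zero 2 hf) (pow_ne_zero 9 hx1')) (pow_ne_zero 9 hx1')]
  linear_combination (0) * hC + (-x ^ 26 * y + 7 * x ^ 25 * y - 16 * x ^ 24 * y - 18 * x ^ 23 * y
      + 245 * x ^ 22 * y - 979 * x ^ 21 * y + 2746 * x ^ 20 * y - 6257 * x ^ 19 * y + 12119 * x ^ 18 * y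
      - 20103 * x ^ 17 * y + 28292 * x ^ 16 * y - 33270 * x ^ 15 * y + 32263 * x ^ 14 * y - 25920 * x ^ 13 * y
      + 18592 * x ^ 12 * y - 14907 * x ^ 11 * y + 15776 * x ^ 10 * y - 18044 * x ^ 9 * y + 17932 * x ^ 8 * y
      - 14358 * x ^ 7 * y + 9076 * x ^ 6 * y - 4459 * x ^ 5 * y + 1654 * x ^ 4 * y - 438 * x ^ 3 * y
      + 74 * x ^ 2 * y - 6 * x * y) * h3

theorem h3o_slope_frob :
    W.slope (x ^ 3) x (y ^ 3) (-y) = (y * x) / (x - 1) := by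
  have hC := h3o_eqn W h3 ha₁ ha₂ ha₃ ha₄ ha₆ h hx0 hx1 hxm hf
  have hx1' : x - 1 ≠ 0 := sub_ne_zero.mpr hx1
  have hne := h3o_X_ne W h3 ha₁ ha₂ ha₃ ha₄ ha₆ h hx0 hx1 hxm hf
  rw [slope_of_X_ne hne, div_eq_div_iff (sub_ne_zero.mpr hne) hx1']
  linear_combination (x * y - y) * hC + (x * y - y) * h3

theorem h3o_addX_frob :
    W.addX (x ^ 3) x ((y * x) / (x - 1)) = (x ^ 3 + x - 1) / ((x - 1) ^ 2) := by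
  have hC := h3o_eqn W h3 ha₁ ha₂ ha₃ ha₄ ha₆ h hx0 hx1 hxm hf
  have hx1' : x - 1 ≠ 0 := sub_ne_zero.mpr hx1
  rw [h3o_g_addX W ha₁ ha₂ ha₃]
  have eL : ∀ d m : k, d ≠ 0 → m ≠ 0 →
      (((((y * x) / m) ^ 2) - 1) - (x ^ 3)) - x =
        (-x ^ 3 * m ^ 2 + x ^ 2 * y ^ 2 - x * m ^ 2 - m ^ 2) / (m ^ 2) := by
    intro d m hd hm
    field_simp
    ring
  rw [eL (x ^ 3 + x ^ 2 + 2) (x - 1) hf hx1']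
  rw [div_eq_div_iff (pow_ne_zero 2 hx1') (pow_ne_zero 2 hx1')]
  linear_combination (x ^ 4 - 2 * x ^ 3 + x ^ 2) * hC + (x ^ 6 - 3 * x ^ 5 + 4 * x ^ 4 - 3 * x ^ 3
      + x ^ 2) * h3

theorem h3o_addY_frob :
    W.addY (x ^ 3) x (y ^ 3) ((y * x) / (x - 1)) = (y * (-x ^ 3 + x - 1)) / ((x - 1) ^ 3) := by
  have hC := h3o_eqn W h3 ha₁ ha₂ ha₃ ha₄ ha₆ h hx0 hx1 hxm hf
  have hx1' : x - 1 ≠ 0 := sub_ne_zero.mpr hx1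
  rw [h3o_g_addY W ha₁ ha₂ ha₃, h3o_addX_frob W h3 ha₁ ha₂ ha₃ ha₄ ha₆ h hx0 hx1 hxm hf]
  have eL : ∀ d m : k, d ≠ 0 → m ≠ 0 →
      -((((y * x) / m) * (((x ^ 3 + x - 1) / (m ^ 2)) - (x ^ 3))) + (y ^ 3)) =
        (x ^ 4 * y * m ^ 2 - x ^ 4 * y - x ^ 2 * y + x * y - y ^ 3 * m ^ 3) / (m ^ 3) := by
    intro d m hd hm
    field_simp
    ring
  rw [eL (x ^ 3 + x ^ 2 + 2) (x - 1) hf hx1']
  rw [div_eq_div_iff (pow_ne_zero 3 hx1') (pow_ne_zero 3 hx1')]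
  linear_combination (-x ^ 6 * y + 6 * x ^ 5 * y - 15 * x ^ 4 * y + 20 * x ^ 3 * y - 15 * x ^ 2 * y
      + 6 * x * y - y) * hC + (-x ^ 6 * y + 5 * x ^ 5 * y - 11 * x ^ 4 * y + 14 * x ^ 3 * y - 11 * x ^ 2 * y
      + 5 * x * y - y) * h3

theorem h3o_final_X :
    ((x ^ 3 + x - 1) / ((x - 1) ^ 2)) ^ 3 = (x ^ 9 + x ^ 3 - 1) / ((x - 1) ^ 6) := by
  have hC := h3o_eqn W h3 ha₁ ha₂ ha₃ ha₄ ha₆ h hx0 hx1 hxm hf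
  have hx1' : x - 1 ≠ 0 := sub_ne_zero.mpr hx1
  have eL : ∀ d m : k, d ≠ 0 → m ≠ 0 →
      ((x ^ 3 + x - 1) / (m ^ 2)) ^ 3 =
        (x ^ 9 + 3 * x ^ 7 - 3 * x ^ 6 + 3 * x ^ 5 - 6 * x ^ 4 + 4 * x ^ 3 - 3 * x ^ 2 + 3 * x - 1) / (m ^ 6) := by
    intro d m hd hm
    field_simp
    ring
  rw [eL (x ^ 3 + x ^ 2 + 2) (x - 1) hf hx1']
  rw [div_eq_div_iff (pow_ne_zero 6 hx1') (pow_ne_zero 6 hx1')]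
  linear_combination (0) * hC + (x ^ 13 - 7 * x ^ 12 + 22 * x ^ 11 - 43 * x ^ 10 + 63 * x ^ 9 - 78 * x ^ 8
      + 84 * x ^ 7 - 78 * x ^ 6 + 63 * x ^ 5 - 43 * x ^ 4 + 22 * x ^ 3 - 7 * x ^ 2 + x) * h3

theorem h3o_final_Y :
    ((y * (-x ^ 3 + x - 1)) / ((x - 1) ^ 3)) ^ 3 = W.negY ((x ^ 9 + x ^ 3 - 1) / ((x - 1) ^ 6)) ((y * (x ^ 12 + x ^ 11 - x ^ 9 - x ^ 6 - x ^ 5 - x ^ 3 + x ^ 2 - 1)) / ((x - 1) ^ 9)) := by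
  have hC := h3o_eqn W h3 ha₁ ha₂ ha₃ ha₄ ha₆ h hx0 hx1 hxm hf
  have hx1' : x - 1 ≠ 0 := sub_ne_zero.mpr hx1
  rw [h3o_g_negY W ha₁ ha₂ ha₃]
  have eL : ∀ d m : k, d ≠ 0 → m ≠ 0 →
      ((y * (-x ^ 3 + x - 1)) / (m ^ 3)) ^ 3 =
        (-x ^ 9 * y ^ 3 + 3 * x ^ 7 * y ^ 3 - 3 * x ^ 6 * y ^ 3 - 3 * x ^ 5 * y ^ 3 + 6 * x ^ 4 * y ^ 3
          - 2 * x ^ 3 * y ^ 3 - 3 * x ^ 2 * y ^ 3 + 3 * x * y ^ 3 - y ^ 3) / (m ^ 9) := by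
    intro d m hd hm
    field_simp
    ring
  rw [eL (x ^ 3 + x ^ 2 + 2) (x - 1) hf hx1']
  have eR : ∀ d m : k, d ≠ 0 → m ≠ 0 →
      -((y * (x ^ 12 + x ^ 11 - x ^ 9 - x ^ 6 - x ^ 5 - x ^ 3 + x ^ 2 - 1)) / (m ^ 9)) =
        (-x ^ 12 * y - x ^ 11 * y + x ^ 9 * y + x ^ 6 * y + x ^ 5 * y + x ^ 3 * y - x ^ 2 * y + y) / (m ^ 9) := by
    intro d m hd hm
    field_simp
    ring
  rw [eR (x ^ 3 + x ^ 2 + 2) (x - 1) hf hx1']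
  rw [div_eq_div_iff (pow_ne_zero 9 hx1') (pow_ne_zero 9 hx1')]
  linear_combination (-x ^ 18 * y + 9 * x ^ 17 * y - 33 * x ^ 16 * y + 54 * x ^ 15 * y + 6 * x ^ 14 * y
      - 201 * x ^ 13 * y + 382 * x ^ 12 * y - 237 * x ^ 11 * y - 303 * x ^ 10 * y + 807 * x ^ 9 * y
      - 756 * x ^ 8 * y + 168 * x ^ 7 * y + 432 * x ^ 6 * y - 627 * x ^ 5 * y + 462 * x ^ 4 * y - 217 * x ^ 3 * y
      + 66 * x ^ 2 * y - 12 * x * y + y) * hC + (x ^ 19 * y - 10 * x ^ 18 * y + 43 * x ^ 17 * y - 99 * x ^ 16 * y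
      + 110 * x ^ 15 * y + 29 * x ^ 14 * y - 290 * x ^ 13 * y + 413 * x ^ 12 * y - 140 * x ^ 11 * y
      - 416 * x ^ 10 * y + 792 * x ^ 9 * y - 652 * x ^ 8 * y + 138 * x ^ 7 * y + 325 * x ^ 6 * y - 470 * x ^ 5 * y
      + 353 * x ^ 4 * y - 173 * x ^ 3 * y + 56 * x ^ 2 * y - 11 * x * y + y) * h3

end ord

/-- **Ordinary curve `y² = x³ + x² + 2` in characteristic 3**: `F (F P - P) + 3 P = 0` for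
`x(P) ∉ {0, 1, -1}` and `x(P)³ + x(P)² + 2 ≠ 0`. -/
theorem h3o_rel (W : WeierstrassCurve.Affine k)
    (h3 : (3 : k) = 0) (ha₁ : W.a₁ = 0) (ha₂ : W.a₂ = 1) (ha₃ : W.a₃ = 0) (ha₄ : W.a₄ = 0)
    (ha₆ : W.a₆ = 2) (F : W.Point → W.Point)
    (hF : ∀ (a b : k) (hab : W.Nonsingular a b), ∃ hab' : W.Nonsingular (a ^ 3) (b ^ 3),
      F (some a b hab) = some (a ^ 3) (b ^ 3) hab')
    {x y : k} (hxy : W.Nonsingular x y) (hx0 : x ≠ 0) (hx1 : x ≠ 1) (hxm : x ≠ -1)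
    (hf : x ^ 3 + x ^ 2 + 2 ≠ 0) :
    F (F (some x y hxy) + -some x y hxy) + (some x y hxy + some x y hxy + some x y hxy) = 0 := by
  have h := hxy.1
  obtain ⟨h₁, e₁⟩ := hF x y hxy
  obtain ⟨hn, en⟩ := h3o_neg_eq_some hxy (h3o_g_negY W ha₁ ha₂ ha₃ x y)
  obtain ⟨hR, eR⟩ := h3o_add_eq_of_X_ne (X := ((x ^ 3 + x - 1) / ((x - 1) ^ 2)))
    (Y := ((y * (-x ^ 3 + x - 1)) / ((x - 1) ^ 3))) h₁ hn (h3o_X_ne W h3 ha₁ ha₂ ha₃ ha₄ ha₆ h hx0 hx1 hxm hf)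
    (by rw [h3o_slope_frob W h3 ha₁ ha₂ ha₃ ha₄ ha₆ h hx0 hx1 hxm hf]; exact h3o_addX_frob W h3 ha₁ ha₂ ha₃ ha₄ ha₆ h hx0 hx1 hxm hf)
    (by rw [h3o_slope_frob W h3 ha₁ ha₂ ha₃ ha₄ ha₆ h hx0 hx1 hxm hf]; exact h3o_addY_frob W h3 ha₁ ha₂ ha₃ ha₄ ha₆ h hx0 hx1 hxm hf)
  obtain ⟨hFR, eFR⟩ := hF _ _ hR
  obtain ⟨h2, e2⟩ := h3o_add_self_eq (X := ((x ^ 4 - x + 1) / (x ^ 3 + x ^ 2 + 2)))
    (Y := ((y * (-x ^ 6 + x ^ 5 - x ^ 3 - x ^ 2 - x - 1)) / ((x ^ 3 + x ^ 2 + 2) ^ 2))) hxy (h3o_Y_ne W h3 ha₁ ha₂ ha₃ ha₄ ha₆ h hx0 hx1 hxm hf)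
    (by rw [h3o_slope_dup W h3 ha₁ ha₂ ha₃ ha₄ ha₆ h hx0 hx1 hxm hf]; exact h3o_addX_dup W h3 ha₁ ha₂ ha₃ ha₄ ha₆ h hx0 hx1 hxm hf)
    (by rw [h3o_slope_dup W h3 ha₁ ha₂ ha₃ ha₄ ha₆ h hx0 hx1 hxm hf]; exact h3o_addY_dup W h3 ha₁ ha₂ ha₃ ha₄ ha₆ h hx0 hx1 hxm hf)
  obtain ⟨h3', e3⟩ := h3o_add_eq_of_X_ne (X := ((x ^ 9 + x ^ 3 - 1) / ((x - 1) ^ 6)))
    (Y := ((y * (x ^ 12 + x ^ 11 - x ^ 9 - x ^ 6 - x ^ 5 - x ^ 3 + x ^ 2 - 1)) / ((x - 1) ^ 9))) h2 hxy (h3o_X2_ne W h3 ha₁ ha₂ ha₃ ha₄ ha₆ h hx0 hx1 hxm hf)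
    (by rw [h3o_slope_trip W h3 ha₁ ha₂ ha₃ ha₄ ha₆ h hx0 hx1 hxm hf]; exact h3o_addX_trip W h3 ha₁ ha₂ ha₃ ha₄ ha₆ h hx0 hx1 hxm hf)
    (by rw [h3o_slope_trip W h3 ha₁ ha₂ ha₃ ha₄ ha₆ h hx0 hx1 hxm hf]; exact h3o_addY_trip W h3 ha₁ ha₂ ha₃ ha₄ ha₆ h hx0 hx1 hxm hf)
  rw [e₁, en, eR, eFR, e2, e3]
  exact add_of_Y_eq (h3o_final_X W h3 ha₁ ha₂ ha₃ ha₄ ha₆ h hx0 hx1 hxm hf) (h3o_final_Y W h3 ha₁ ha₂ ha₃ ha₄ ha₆ h hx0 hx1 hxm hf)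

end Fermat.Agent.H49.S58
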